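import Fermat.Agent.S55.Cap.IndM

/-!
# S55 / A8-C2: the abstract (Shapiro in degree 0) part   (helper899)

`G` a group, `X` a `G`-module, `E ≤ X` a `G`-stable subgroup, `U₁ ≤ U₀` subgroups of finite index.
An element `q ∈ Ind_{U₁} X` which is `G`-invariant modulo `Ind_{U₁} E` is determined modulo `E` by
`a = q(1̄)`, and `le(q)(1̄) ≡ ∑_{x ∈ U₀/U₁} x a`  (`le_one_sub_norm_mem`).
Conversely an element `b ∈ X` which is `U₀`-invariant modulo `E` gives an invariant
`q₂ ∈ Ind_{U₀} X` (`absC2`).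
-/

set_option autoImplicit false
set_option linter.unusedVariables false
set_option linter.unusedSectionVars false

noncomputable section

namespace Fermat.Agent.S55.Cap.H899

open Fermat.Agent.S55.Cap

variable {G : Type} [Group G] {X Y : Type} [AddCommGroup X] [AddCommGroup Y]

/-! ### evaluation in `IndM` -/

lemma toF_single (U : Subgroup G) [DecidableEq (G ⧸ U)] (x y : G ⧸ U) (a : X) :
    IndM.toF U (IndM.single U x a) y = if x = y then a else 0 := by
  show (Finsupp.single x a) y = _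
  rw [Finsupp.single_apply]

lemma toF_smul [DistribMulAction G X] (U : Subgroup G) (g : G) (F : IndM U X) (y : G ⧸ U) :
    IndM.toF U (g • F) y = g • IndM.toF U F (g⁻¹ • y) := by
  classical
  induction F using IndM.induction_on with
  | h0 =>
    rw [smul_zero, map_zero]
    exact (smul_zero g).symm
  | hadd F F' hF hF' =>
    rw [smul_add, map_add, map_add]
    show IndM.toF U (g • F) y + IndM.toF U (g • F') y
      = g • (IndM.toF U F (g⁻¹ • y) + IndM.toF U F' (g⁻¹ • y))
    rw [hF, hF', smul_add]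
  | hsingle x a =>
    rw [IndM.smul_single, toF_single, toF_single]
    by_cases h : g • x = y
    · have h' : x = g⁻¹ • y := by rw [← h, inv_smul_smul]
      rw [if_pos h, if_pos h']
    · have h' : ¬ x = g⁻¹ • y := fun hx => h (by rw [hx, smul_inv_smul])
      rw [if_neg h, if_neg h', smul_zero]

/-- an element all of whose values lie in the range of `φ` is in the range of `Ind φ` -/
lemma exists_map_eq_of_forall_mem' (U : Subgroup G) (φ : X →+ Y) (F : IndM U Y)
    (hF : ∀ y, ∃ a : X, φ a = IndM.toF U F y) : ∃ F' : IndM U X, IndM.map U φ F' = F := by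
  classical
  choose s hs using hF
  refine ⟨IndM.ofF U (Finsupp.onFinset (IndM.toF U F).support
    (fun x => if IndM.toF U F x = 0 then 0 else s x) (fun x hx => ?_)), ?_⟩
  · rw [Finsupp.mem_support_iff]
    intro h0
    exact hx (by rw [if_pos h0])
  · apply Finsupp.ext
    intro x
    show φ (if IndM.toF U F x = 0 then 0 else s x) = IndM.toF U F x
    split_ifs with h0
    · rw [map_zero, h0]
    · exact hs x

/-- `Ind_U E → Ind_U X` has image the elements with values in `E` -/
lemma exists_map_subtype_eq (U : Subgroup G) (E : AddSubgroup X) (F : IndM U X)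
    (hF : ∀ y, IndM.toF U F y ∈ E) : ∃ F' : IndM U ↥E, IndM.map U E.subtype F' = F :=
  exists_map_eq_of_forall_mem' U E.subtype F (fun y => ⟨⟨_, hF y⟩, rfl⟩)

lemma toF_le_mem {U V : Subgroup G} (h : U ≤ V) (E : AddSubgroup X) (F : IndM U X)
    (hF : ∀ y, IndM.toF U F y ∈ E) (y : G ⧸ V) : IndM.toF V (IndM.le h F) y ∈ E := by
  obtain ⟨F', rfl⟩ := exists_map_subtype_eq U E F hF
  rw [IndM.le_map, IndM.map_apply]
  exact (IndM.toF V (IndM.le h F') y).2

lemma toF_le_apply {U V : Subgroup G} [Fintype (G ⧸ U)] [DecidableEq (G ⧸ V)] (h : U ≤ V)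
    (F : IndM U X) (y : G ⧸ V) :
    IndM.toF V (IndM.le h F) y
      = ∑ x : G ⧸ U, if Subgroup.quotientMapOfLE h x = y then IndM.toF U F x else 0 := by
  classical
  induction F using IndM.induction_on with
  | h0 =>
    rw [map_zero, map_zero]
    symm
    apply Finset.sum_eq_zero
    intro x _
    split_ifs
    · rfl
    · rfl
  | hadd F F' hF hF' =>
    rw [map_add, map_add]
    show IndM.toF V (IndM.le h F) y + IndM.toF V (IndM.le h F') y = _
    rw [hF, hF', ← Finset.sum_add_distrib]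
    apply Finset.sum_congr rfl
    intro x _
    split_ifs
    · rfl
    · rw [add_zero]
  | hsingle x a =>
    rw [IndM.le_single, toF_single]
    rw [Finset.sum_eq_single x]
    · rw [toF_single, if_pos rfl]
    · intro x' _ hx'
      rw [toF_single, if_neg (Ne.symm hx')]
      split_ifs <;> rfl
    · intro hx
      exact absurd (Finset.mem_univ x) hx

/-! ### the abstract statements -/

section Abs

variable [DistribMulAction G X] (E : AddSubgroup X) (hE : ∀ (g : G) (a : X), a ∈ E → g • a ∈ E)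

include hE

/-- `q(x) ≡ g q(1̄)` for every `g` in the class `x` -/
lemma toF_sub_smul_one_mem (U : Subgroup G) (q : IndM U X)
    (hq : ∀ (g : G) (y : G ⧸ U), IndM.toF U (g • q - q) y ∈ E) (g : G) :
    IndM.toF U q (QuotientGroup.mk g) - g • IndM.toF U q (QuotientGroup.mk 1) ∈ E := by
  have h1 := hq g (QuotientGroup.mk g)
  rw [map_sub] at h1
  have h2 : IndM.toF U (g • q) (QuotientGroup.mk g) = g • IndM.toF U q (QuotientGroup.mk 1) := by
    rw [toF_smul]
    congr 2
    show (QuotientGroup.mk (g⁻¹ * g) : G ⧸ U) = QuotientGroup.mk 1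
    rw [inv_mul_cancel]
  have h3 : IndM.toF U (g • q) (QuotientGroup.mk g) - IndM.toF U q (QuotientGroup.mk g) ∈ E := h1
  rw [h2] at h3
  have := E.neg_mem h3
  rwa [neg_sub] at this

/-- `le(q)(1̄) ≡ ∑_{x ∈ U₀/U₁} x̃ q(1̄)` modulo `E` -/
lemma le_one_sub_norm_mem {U₁ U₀ : Subgroup G} (h : U₁ ≤ U₀) [Fintype (G ⧸ U₁)]
    [DecidableEq (G ⧸ U₀)] (q : IndM U₁ X)
    (hq : ∀ (g : G) (y : G ⧸ U₁), IndM.toF U₁ (g • q - q) y ∈ E) :
    IndM.toF U₀ (IndM.le h q) (QuotientGroup.mk 1)
      - ∑ x : G ⧸ U₁, (if Subgroup.quotientMapOfLE h x = QuotientGroup.mk 1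
          then (Quotient.out x : G) • IndM.toF U₁ q (QuotientGroup.mk 1) else 0) ∈ E := by
  rw [toF_le_apply, ← Finset.sum_sub_distrib]
  apply AddSubgroup.sum_mem
  intro x _
  split_ifs with hx
  · have := toF_sub_smul_one_mem E hE U₁ q hq (Quotient.out x)
    rwa [QuotientGroup.out_eq'] at this
  · rw [sub_zero]
    exact E.zero_mem

/-- **Abstract C2.**  If `n • le(q)(1̄) ≡ p • b` modulo `E` with `b` invariant under `U₀` modulo
`E`, then `n • le(q) ≡ p • q₂` modulo `Ind E` for an element `q₂` invariant modulo `Ind E`. -/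
theorem absC2 (p : ℕ) {U₁ U₀ : Subgroup G} (h : U₁ ≤ U₀) [Finite (G ⧸ U₀)] (q : IndM U₁ X)
    (hq : ∀ (g : G) (y : G ⧸ U₁), IndM.toF U₁ (g • q - q) y ∈ E)
    (n : ℕ) (b : X) (hb : ∀ u ∈ U₀, u • b - b ∈ E)
    (hnb : n • IndM.toF U₀ (IndM.le h q) (QuotientGroup.mk 1) - p • b ∈ E) :
    ∃ q₂ : IndM U₀ X, (∀ (g : G) (y : G ⧸ U₀), IndM.toF U₀ (g • q₂ - q₂) y ∈ E) ∧
      ∀ y : G ⧸ U₀, IndM.toF U₀ (n • IndM.le h q - p • q₂) y ∈ E := by
  classical
  let q₂ : IndM U₀ X :=
    IndM.ofF U₀ (Finsupp.equivFunOnFinite.symm (fun y : G ⧸ U₀ => (Quotient.out y : G) • b))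
  have hq₂ : ∀ y : G ⧸ U₀, IndM.toF U₀ q₂ y = (Quotient.out y : G) • b := fun y => rfl
  have hmk : ∀ y : G ⧸ U₀, (QuotientGroup.mk (Quotient.out y : G) : G ⧸ U₀) = y :=
    fun y => QuotientGroup.out_eq' y
  refine ⟨q₂, ?_, ?_⟩
  · intro g y
    rw [map_sub]
    show IndM.toF U₀ (g • q₂) y - IndM.toF U₀ q₂ y ∈ E
    rw [toF_smul, hq₂, hq₂]
    -- `g s(g⁻¹ y) = s(y) u`
    set s := (Quotient.out y : G) with hs
    set s' := (Quotient.out (g⁻¹ • y) : G) with hs'
    have hu : s⁻¹ * (g * s') ∈ U₀ := by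
      rw [← QuotientGroup.eq]
      show (QuotientGroup.mk s : G ⧸ U₀) = g • (QuotientGroup.mk s' : G ⧸ U₀)
      rw [hmk, hmk, smul_inv_smul]
    have h1 : g • s' • b - s • b = s • ((s⁻¹ * (g * s')) • b - b) := by
      rw [smul_sub, ← mul_smul, ← mul_smul, ← mul_assoc, mul_inv_cancel, one_mul]
    rw [h1]
    exact hE _ _ (hb _ hu)
  · intro y
    have hle : ∀ (g : G) (y : G ⧸ U₀), IndM.toF U₀ (g • IndM.le h q - IndM.le h q) y ∈ E := by
      intro g y
      rw [← IndM.le_smul, ← map_sub]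
      exact toF_le_mem h E _ (hq g) y
    have h1 := toF_sub_smul_one_mem E hE U₀ (IndM.le h q) hle (Quotient.out y)
    rw [hmk] at h1
    rw [map_sub]
    show IndM.toF U₀ (n • IndM.le h q) y - IndM.toF U₀ (p • q₂) y ∈ E
    rw [IndM.nsmul_apply, IndM.nsmul_apply, hq₂]
    set s := (Quotient.out y : G) with hs
    have h2 : n • IndM.toF U₀ (IndM.le h q) y - p • s • b
        = n • (IndM.toF U₀ (IndM.le h q) y - s • IndM.toF U₀ (IndM.le h q) (QuotientGroup.mk 1))
          + s • (n • IndM.toF U₀ (IndM.le h q) (QuotientGroup.mk 1) - p • b) := by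
      rw [smul_sub, smul_sub, smul_comm s n, smul_comm s p]
      abel
    rw [h2]
    exact E.add_mem (E.nsmul_mem h1 n) (hE _ _ hnb)

end Abs

end Fermat.Agent.S55.Cap.H899
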