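import Fermat.Agent.S55.Cap.H899.Dict
import Fermat.Agent.S55.Cap.H899.AbsC2

/-!
# S55 / A8-C2: `C2AdapterSpec`   (helper899)

`c2Adapter : Cap.C2AdapterSpec p S`, i.e. `GlobalSpecCap p S → C2Spec p S`
(existence theorem mod `p` in cochain form), from the tower datum: GD4, GD5, GD6, GD7, GD11, GD12.
Blueprint: `origin/helper303:coord/S55-K-A8.md` §4.4.
-/

set_option autoImplicit false
set_option linter.unusedVariables false
set_option linter.unusedSectionVars false
set_option maxHeartbeats 400000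

noncomputable section

namespace Fermat.Agent.S55.Cap.H899

open Fermat.Agent.S55.PT Fermat.Agent.S55.Tow Fermat.Agent.S55.Cap

variable {S : Finset Nat.Primes}

/-! ### the action and the transition maps on `J(L) = ∏_{q ∈ S} J_q(L)` -/

/-- the action of `Gal(L/ℚ)` on `J(L)` -/
def actJ (L : Level S) (g : L.Gal) : (∀ q : ↥S, (L.J q.1).V) →+ (∀ q : ↥S, (L.J q.1).V) :=
  AddMonoidHom.mk' (fun x q => (L.J q.1).ρ g (x q)) (fun x y => by
    funext q
    exact map_add ((L.J q.1).ρ g) (x q) (y q))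

/-- the transition map `J(L) → J(L')` -/
def trJS {L L' : Level S} (h : L ≤ L') : (∀ q : ↥S, (L.J q.1).V) →+ (∀ q : ↥S, (L'.J q.1).V) :=
  AddMonoidHom.mk' (fun x q => (Level.trJ h q.1).hom (x q)) (fun x y => by
    funext q
    exact map_add (Level.trJ h q.1).hom (x q) (y q))

lemma ofJ_actJ (L : Level S) (g : Tow.GQ) (x : ∀ q : ↥S, (L.J q.1).V) :
    ofJ L (actJ L (QuotientGroup.mk g) x) = g • ofJ L x := ofJ_smul L g x

lemma ofJ_trJS {L L' : Level S} (h : L ≤ L') (x : ∀ q : ↥S, (L.J q.1).V) :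
    ofJ L' (trJS h x) = ofJ L x := ofJ_trJ h x

lemma actJ_of_mem_U (L : Level S) {u : Tow.GQ} (hu : u ∈ L.U) (x : ∀ q : ↥S, (L.J q.1).V) :
    actJ L (QuotientGroup.mk u) x = x := by
  have h1 : (QuotientGroup.mk u : L.Gal) = 1 := (QuotientGroup.eq_one_iff u).2 hu
  funext q
  show (L.J q.1).ρ (QuotientGroup.mk u) (x q) = x q
  rw [h1, map_one, Module.End.one_apply]

/-! ### `j : J(L) → C(L)` -/

variable (D : TowerDatum S)

/-- `j = ∑_q j_q : J(L) → C(L)` -/
def jS (L : Level S) : (∀ q : ↥S, (L.J q.1).V) →+ (D.C L).V :=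
  AddMonoidHom.mk' (fun x => ∑ q : ↥S, (D.j L q.1).hom (x q)) (fun x y => by
    rw [← Finset.sum_add_distrib]
    apply Finset.sum_congr rfl
    intro q _
    exact map_add (D.j L q.1).hom (x q) (y q))

lemma jS_apply (L : Level S) (x : ∀ q : ↥S, (L.J q.1).V) :
    jS D L x = ∑ q : ↥S, (D.j L q.1).hom (x q) := rfl

lemma jS_actJ (L : Level S) (g : L.Gal) (x : ∀ q : ↥S, (L.J q.1).V) :
    jS D L (actJ L g x) = (D.C L).ρ g (jS D L x) := by
  rw [jS_apply, jS_apply, map_sum]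
  apply Finset.sum_congr rfl
  intro q _
  exact Rep.hom_comm_apply (D.j L q.1) g (x q)

lemma tr_ρ {L L' : Level S} (h : L ≤ L') (g : L'.Gal) (c : (D.C L).V) :
    (D.tr h).hom ((D.C L).ρ (Level.proj h g) c) = (D.C L').ρ g ((D.tr h).hom c) :=
  Rep.hom_comm_apply (D.tr h) g c

section Good

variable {D} {p : ℕ} (hD : D.IsGoodMu p)

include hD

lemma jS_trJS {L L' : Level S} (h : L ≤ L') (x : ∀ q : ↥S, (L.J q.1).V) :
    jS D L' (trJS h x) = (D.tr h).hom (jS D L x) := by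
  rw [jS_apply, jS_apply, map_sum]
  apply Finset.sum_congr rfl
  intro q _
  exact (hD.gd7a h q.1 q.2 (x q)).symm

/-- GD4 in terms of the big modules: `ker j = J(L) ∩ 𝔼` -/
lemma jS_eq_zero_iff (hS : S.Nonempty) (L : Level S) (x : ∀ q : ↥S, (L.J q.1).V) :
    jS D L x = 0 ↔ ofJ L x ∈ (iEJ S).range := by
  constructor
  · intro h
    obtain ⟨e, he, hx⟩ := (hD.gd4 L x).1 h
    have h1 : ofJ L x = iEJ S (ofU L e he) :=
      (congrArg (ofJ L) (funext hx)).trans (ofJ_diag L e he)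
    exact ⟨_, h1.symm⟩
  · rintro ⟨e₀, he₀⟩
    have hinv : ∀ u ∈ L.U, u • e₀ = e₀ := by
      intro u hu
      apply iEJ_injective S hS
      rw [iEJ_smul, he₀, ← ofJ_actJ, actJ_of_mem_U L hu]
    obtain ⟨e', he', rfl⟩ := exists_ofU_eq L e₀ hinv
    refine (hD.gd4 L x).2 ⟨e', he', fun q => ?_⟩
    rw [← ofJ_diag L e' he'] at he₀
    exact congrFun (ofJ_injective L he₀).symm q

end Good

/-! ### the core: norms of `(𝕁/𝔼)^{U₁}` are `p`-th multiples in `(𝕁/𝔼)^{U₀}` -/

lemma mem_relGal_iff {L L' : Level S} (h : L ≤ L') (g : Tow.GQ) :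
    (QuotientGroup.mk g : L'.Gal) ∈ Level.relGal h ↔ g ∈ L.U := by
  rw [Level.relGal, MonoidHom.mem_ker, Level.proj_mk, QuotientGroup.eq_one_iff]

lemma quotientMapOfLE_eq_proj {L L' : Level S} (h : L ≤ L') (x : L'.Gal) :
    Subgroup.quotientMapOfLE (Level.U_anti h) x = Level.proj h x := by
  induction x using QuotientGroup.induction_on with
  | H g => rfl

/-- the sum over the fibre of `1̄` is the sum over `Gal(L'/L)` -/
lemma sum_ite_eq_sum_relGal {L L' : Level S} (h : L ≤ L') [Fintype (Tow.GQ ⧸ L'.U)]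
    [DecidableEq (Tow.GQ ⧸ L.U)] {F : Fintype ↥(Level.relGal h)} {A : Type} [AddCommMonoid A]
    (f : L'.Gal → A) :
    (∑ x : Tow.GQ ⧸ L'.U,
        if Subgroup.quotientMapOfLE (Level.U_anti h) x = QuotientGroup.mk 1 then f x else 0)
      = ∑ σ : ↥(Level.relGal h), f σ.1 := by
  rw [← Finset.sum_filter]
  refine Finset.sum_subtype _ (fun x => ?_) f
  rw [Finset.mem_filter, quotientMapOfLE_eq_proj h, Level.relGal, MonoidHom.mem_ker]
  exact ⟨fun hx => hx.2, fun hx => ⟨Finset.mem_univ x, hx⟩⟩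

section Key

variable {D} {p : ℕ}

theorem key (hp : p.Prime) (hD : D.IsGoodMu p) (hTors : ClTorsion D) (hDesc : Descent D)
    (hS : S.Nonempty) {L₀ L₁ : Level S} (h01 : L₀ ≤ L₁)
    (hN : @E1.NormInP p L₁.Gal _ (Level.relGal h01) (Fintype.ofFinite _) (D.C L₁))
    [Fintype (Tow.GQ ⧸ L₁.U)] [DecidableEq (Tow.GQ ⧸ L₀.U)]
    (a : JJS S) (ha : ∀ u ∈ L₁.U, u • a - a ∈ (iEJ S).range) :
    ∃ (n : ℕ) (b : JJS S), n.Coprime p ∧ (∀ u ∈ L₀.U, u • b - b ∈ (iEJ S).range) ∧
      n • (∑ x : Tow.GQ ⧸ L₁.U,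
          if Subgroup.quotientMapOfLE (Level.U_anti h01) x = QuotientGroup.mk 1
            then (Quotient.out x : Tow.GQ) • a else 0) - p • b ∈ (iEJ S).range := by
  -- Step 1: a finite level for `a`
  obtain ⟨L, h1L, α, hα⟩ := exists_level_ofJ_eq L₁ a
  have hz : ∀ σ ∈ Level.relGal h1L, (D.C L).ρ σ (jS D L α) = jS D L α := by
    intro σ hσ
    induction σ using QuotientGroup.induction_on with
    | H u =>
      have hu : u ∈ L₁.U := (mem_relGal_iff h1L u).1 hσ
      have h2 := ha u hu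
      rw [← hα, ← ofJ_actJ, ← map_sub] at h2
      have h3 := (jS_eq_zero_iff hD hS L _).2 h2
      rw [map_sub, jS_actJ, sub_eq_zero] at h3
      exact h3
  -- Step 2: descent
  obtain ⟨L'', h', c₁, hc₁⟩ := hDesc h1L (jS D L α) hz
  -- Step 3: existence theorem mod `p`
  obtain ⟨c₀, hc₀fix, hc₀⟩ := hN c₁
  -- Step 4: the class group is torsion + capitulation
  obtain ⟨n', hn'pos, hloc⟩ := hTors L'' ((D.tr (h1L.trans h')).hom c₀)
  obtain ⟨k, n, hpn, rfl⟩ := Nat.exists_eq_pow_mul_and_not_dvd hn'pos.ne' p hp.ne_one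
  rw [mul_nsmul'] at hloc
  obtain ⟨M, h'', β, hβ⟩ := hD.gd5 L'' _ k hloc
  have h1M : L₁ ≤ M := (h1L.trans h').trans h''
  have hLM : L ≤ M := h'.trans h''
  -- the elements at level `M`
  have ht : jS D M β = n • (D.tr h1M).hom c₀ := by
    rw [jS_apply, ← hβ, map_nsmul, hD.gd7b]
  have hαM : ofJ M (trJS hLM α) = a := by rw [ofJ_trJS, hα]
  have hzM : jS D M (trJS hLM α) = (D.tr h1M).hom c₁ := by
    rw [jS_trJS hD, ← hD.gd7b h' h'', hc₁, hD.gd7b]
  have hfix : ∀ u ∈ L₀.U, (D.C M).ρ (QuotientGroup.mk u) ((D.tr h1M).hom c₀)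
      = (D.tr h1M).hom c₀ := by
    intro u hu
    rw [← tr_ρ, Level.proj_mk, hc₀fix _ ((mem_relGal_iff h01 u).2 hu)]
  refine ⟨n, ofJ M β, ((Nat.Prime.coprime_iff_not_dvd hp).2 hpn).symm, ?_, ?_⟩
  · intro u hu
    have h1 : u • ofJ M β - ofJ M β = ofJ M (actJ M (QuotientGroup.mk u) β - β) := by
      rw [map_sub, ofJ_actJ]
    rw [h1]
    apply (jS_eq_zero_iff hD hS M _).1
    rw [map_sub, jS_actJ, ht, map_nsmul, hfix u hu, sub_self]
  · have h1 : (∑ x : Tow.GQ ⧸ L₁.U,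
          if Subgroup.quotientMapOfLE (Level.U_anti h01) x = QuotientGroup.mk 1
            then (Quotient.out x : Tow.GQ) • a else 0)
        = ofJ M (∑ x : Tow.GQ ⧸ L₁.U,
          if Subgroup.quotientMapOfLE (Level.U_anti h01) x = QuotientGroup.mk 1
            then actJ M (QuotientGroup.mk (Quotient.out x : Tow.GQ)) (trJS hLM α) else 0) := by
      rw [map_sum]
      apply Finset.sum_congr rfl
      intro x _
      split_ifs
      · rw [ofJ_actJ, hαM]
      · rw [map_zero]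
    rw [h1, ← map_nsmul, ← map_nsmul, ← map_sub]
    apply (jS_eq_zero_iff hD hS M _).1
    have h2 : jS D M (∑ x : Tow.GQ ⧸ L₁.U,
          if Subgroup.quotientMapOfLE (Level.U_anti h01) x = QuotientGroup.mk 1
            then actJ M (QuotientGroup.mk (Quotient.out x : Tow.GQ)) (trJS hLM α) else 0)
        = p • (D.tr h1M).hom c₀ := by
      rw [map_sum, ← map_nsmul, ← hc₀, map_sum,
        ← sum_ite_eq_sum_relGal h01 (fun x => (D.tr h1M).hom ((D.C L₁).ρ x c₁))]
      apply Finset.sum_congr rfl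
      intro x _
      split_ifs
      · rw [jS_actJ, hzM, ← tr_ρ, Level.proj_mk, QuotientGroup.out_eq']
      · rw [map_zero]
    rw [map_sub, map_nsmul, map_nsmul, h2, ht, smul_comm, sub_self]

end Key

/-! ### the leaf -/

lemma subsingleton_indM_of_isEmpty {G : Type} [Group G] (U : Subgroup G) {X : Type}
    [AddCommGroup X] [Subsingleton X] : Subsingleton (IndM U X) :=
  ⟨fun a b => Finsupp.ext fun x => Subsingleton.elim _ _⟩

/-- **A8-C2**: the existence theorem mod `p` in cochain form, from the tower datum. -/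
theorem c2Adapter (p : ℕ) [Fact p.Prime] (S : Finset Nat.Primes) : C2AdapterSpec p S := by
  rintro ⟨D, hD, hTors, hDesc⟩ L₀ hμ
  have hp : p.Prime := Fact.out
  obtain ⟨L₁, h01, hN⟩ := hD.gd6 L₀ hμ
  refine ⟨L₁, h01, fun q hq => ?_⟩
  rcases S.eq_empty_or_nonempty with hS | hS
  · -- `S = ∅`: `𝕁 = 0`
    haveI : IsEmpty ↥S := Finset.isEmpty_coe_sort.2 hS
    haveI : Subsingleton (JJS S) := by
      unfold JJS
      infer_instance
    haveI := subsingleton_indM_of_isEmpty L₀.U (X := JJS S)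
    exact ⟨1, 0, Nat.coprime_one_left p, fun g => ⟨0, Subsingleton.elim _ _⟩, 0,
      Subsingleton.elim _ _⟩
  classical
  letI : Fintype (Tow.GQ ⧸ L₁.U) := Fintype.ofFinite _
  have hE : ∀ (g : Tow.GQ) (a : JJS S), a ∈ (iEJ S).range → g • a ∈ (iEJ S).range := by
    rintro g _ ⟨e, rfl⟩
    exact ⟨g • e, iEJ_smul S g e⟩
  have hq' : ∀ (g : Tow.GQ) (y : Tow.GQ ⧸ L₁.U),
      IndM.toF L₁.U (g • q - q) y ∈ (iEJ S).range := by
    intro g y
    obtain ⟨e, he⟩ := hq g
    rw [← he, IndM.map_apply]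
    exact ⟨_, rfl⟩
  have ha : ∀ u ∈ L₁.U, u • IndM.toF L₁.U q (QuotientGroup.mk 1)
      - IndM.toF L₁.U q (QuotientGroup.mk 1) ∈ (iEJ S).range := by
    intro u hu
    have h1 := toF_sub_smul_one_mem _ hE L₁.U q hq' u
    have h2 : (QuotientGroup.mk u : Tow.GQ ⧸ L₁.U) = QuotientGroup.mk 1 := by
      rw [QuotientGroup.eq, mul_one]
      exact L₁.U.inv_mem hu
    rw [h2] at h1
    have h3 := neg_mem h1
    rwa [neg_sub] at h3
  obtain ⟨n, b, hn, hb, hnb⟩ := key hp hD hTors hDesc hS h01 (hN L₁ h01 le_rfl) _ ha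
  have hnb' : n • IndM.toF L₀.U (IndM.le (Level.U_anti h01) q) (QuotientGroup.mk 1) - p • b
      ∈ (iEJ S).range := by
    have h1 := le_one_sub_norm_mem _ hE (Level.U_anti h01) q hq'
    have h2 := add_mem (nsmul_mem h1 n) hnb
    rw [smul_sub] at h2
    have h3 : n • IndM.toF L₀.U (IndM.le (Level.U_anti h01) q) (QuotientGroup.mk 1) - p • b
        = n • IndM.toF L₀.U (IndM.le (Level.U_anti h01) q) (QuotientGroup.mk 1) -
            n • (∑ x : Tow.GQ ⧸ L₁.U,
              if Subgroup.quotientMapOfLE (Level.U_anti h01) x = QuotientGroup.mk 1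
                then (Quotient.out x : Tow.GQ) • IndM.toF L₁.U q (QuotientGroup.mk 1) else 0) +
          (n • (∑ x : Tow.GQ ⧸ L₁.U,
              if Subgroup.quotientMapOfLE (Level.U_anti h01) x = QuotientGroup.mk 1
                then (Quotient.out x : Tow.GQ) • IndM.toF L₁.U q (QuotientGroup.mk 1) else 0)
            - p • b) := by
      abel
    rw [h3]
    exact h2
  obtain ⟨q₂, h1, h2⟩ := absC2 _ hE p (Level.U_anti h01) q hq' n b hb hnb'
  exact ⟨n, q₂, hn, fun g => exists_map_eq_of_forall_mem' L₀.U (iEJ S) _ (fun y => h1 g y),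
    exists_map_eq_of_forall_mem' L₀.U (iEJ S) _ (fun y => h2 y)⟩

end Fermat.Agent.S55.Cap.H899
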