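import Fermat.Agent.S55.Cap.Spec

/-!
# S55 / A8 (CAP): dictionary  finite level  ↔  big smooth modules   (helper899)

* `ofJq L q : (L.J q).V →+ JJ S q`, `f ↦ (g ↦ f ḡ)`; injective, equivariant
  (`ofJq_smul`), compatible with the transition maps (`ofJq_trJ`), image = the `L.U`-invariants
  (`exists_ofJq_eq`);
* `ofJ L : (∀ q : S, (L.J q).V) →+ JJS S`, same properties;
* `ofU L e he : SU S` for an `S`-unit `e` of `L`; `exists_ofU_eq`;
* `ofJ_diag : ofJ L (fun q => diag q e) = iEJ S (ofU L e he)`.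
-/

set_option autoImplicit false
set_option linter.unusedVariables false
set_option linter.unusedSectionVars false

noncomputable section

namespace Fermat.Agent.S55.Cap.H899

open Fermat.Agent.S55.PT Fermat.Agent.S55.Tow Fermat.Agent.S55.Cap

variable {S : Finset Nat.Primes}

/-! ### `J_q(L) → 𝕁_q` -/

lemma mk_mul_of_mem_U (L : Level S) (g : Tow.GQ) {u : Tow.GQ} (hu : u ∈ L.U) :
    (QuotientGroup.mk (g * u) : L.Gal) = QuotientGroup.mk g := by
  rw [QuotientGroup.eq]
  have : (g * u)⁻¹ * g = u⁻¹ := by group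
  rw [this]
  exact L.U.inv_mem hu

/-- `J_q(L) → 𝕁_q`, `f ↦ (g ↦ f ḡ)` -/
def ofJq (L : Level S) (q : Nat.Primes) : (L.J q).V →+ JJ S q where
  toFun f := JJ.mk S q (fun g => L.locCoe q (L.Jeval q f (QuotientGroup.mk g)))
    (fun d g => by
      have h1 : (QuotientGroup.mk (locQ q d * g) : L.Gal)
          = L.decHom q (QuotientGroup.mk d) * QuotientGroup.mk g := rfl
      rw [h1, L.Jeval_mul]
      rfl)
    ⟨L, fun u hu g => by rw [mk_mul_of_mem_U L g hu]⟩
  map_zero' := by
    apply JJ.ext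
    intro g
    rfl
  map_add' f f' := by
    apply JJ.ext
    intro g
    rfl

@[simp] lemma ev_ofJq (L : Level S) (q : Nat.Primes) (f : (L.J q).V) (g : Tow.GQ) :
    JJ.ev S q g (ofJq L q f) = L.locCoe q (L.Jeval q f (QuotientGroup.mk g)) := rfl

lemma ofJq_injective (L : Level S) (q : Nat.Primes) : Function.Injective (ofJq L q) := by
  intro f f' h
  apply L.J_ext q
  intro y
  induction y using QuotientGroup.induction_on with
  | H g =>
    apply L.locCoe_injective q
    have := congrArg (JJ.ev S q g) h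
    rwa [ev_ofJq, ev_ofJq] at this

lemma ofJq_smul (L : Level S) (q : Nat.Primes) (g : Tow.GQ) (f : (L.J q).V) :
    ofJq L q ((L.J q).ρ (QuotientGroup.mk g) f) = g • ofJq L q f := by
  apply JJ.ext
  intro g'
  rw [JJ.ev_smul, ev_ofJq, ev_ofJq, L.Jeval_ρ]
  rfl

lemma ofJq_trJ {L L' : Level S} (h : L ≤ L') (q : Nat.Primes) (f : (L.J q).V) :
    ofJq L' q ((Level.trJ h q).hom f) = ofJq L q f := by
  apply JJ.ext
  intro g
  rfl

/-- the elements of `𝕁_q` fixed by `L.U` come from `J_q(L)` -/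
lemma exists_ofJq_eq (L : Level S) (q : Nat.Primes) (a : JJ S q)
    (ha : ∀ u ∈ L.U, u • a = a) : ∃ f : (L.J q).V, ofJq L q f = a := by
  -- right invariance
  have hR : ∀ u ∈ L.U, ∀ g : Tow.GQ, JJ.ev S q (g * u) a = JJ.ev S q g a := by
    intro u hu g
    have := congrArg (JJ.ev S q g) (ha u hu)
    rwa [JJ.ev_smul] at this
  -- the value at `g` only depends on the class of `g`
  have hout : ∀ g : Tow.GQ,
      JJ.ev S q (Quotient.out (QuotientGroup.mk g : L.Gal)) a = JJ.ev S q g a := by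
    intro g
    obtain ⟨u, hu⟩ := QuotientGroup.mk_out_eq_mul L.U g
    rw [hu]
    exact hR u.1 u.2 g
  -- the values are invariant under `L.V q`
  have hV : ∀ (g : Tow.GQ) (d : GQp q), d ∈ L.V q →
      (unitsQpbar q).ρ d (JJ.ev S q g a) = JJ.ev S q g a := by
    intro g d hd
    rw [← JJ.ev_mul_left]
    have h1 : locQ q d * g = g * (g⁻¹ * locQ q d * g) := by group
    rw [h1]
    exact hR _ (Level.conj_mem_U' S L hd g) g
  let F : L.Gal → (L.locUnits q).V := fun y =>
    L.locMk q (JJ.ev S q (Quotient.out y) a) (fun d hd => hV _ d hd)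
  have hF : ∀ g : Tow.GQ, L.locCoe q (F (QuotientGroup.mk g)) = JJ.ev S q g a := fun g => hout g
  have hcoind : ∀ (d : L.Dec q) (y : L.Gal), F (L.decHom q d * y) = (L.locUnits q).ρ d (F y) := by
    intro d y
    induction d using QuotientGroup.induction_on with
    | H δ =>
      induction y using QuotientGroup.induction_on with
      | H g =>
        apply L.locCoe_injective q
        have h1 : L.decHom q (QuotientGroup.mk δ) * (QuotientGroup.mk g : L.Gal)
            = QuotientGroup.mk (locQ q δ * g) := rfl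
        rw [h1, hF, L.locUnits_ρ_coe, hF, JJ.ev_mul_left]
  refine ⟨⟨F, hcoind⟩, ?_⟩
  apply JJ.ext
  intro g
  rw [ev_ofJq]
  exact hF g

/-! ### `J(L) = ∏_{q ∈ S} J_q(L) → 𝕁` -/

/-- `J(L) → 𝕁` -/
def ofJ (L : Level S) : (∀ q : ↥S, (L.J q.1).V) →+ JJS S :=
  AddMonoidHom.mk' (fun x q => ofJq L q.1 (x q)) (fun x y => by
    funext q
    exact map_add (ofJq L q.1) (x q) (y q))

@[simp] lemma proj_ofJ (L : Level S) (x : ∀ q : ↥S, (L.J q.1).V) (q : ↥S) :
    JJS.proj S q (ofJ L x) = ofJq L q.1 (x q) := rfl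

lemma ofJ_injective (L : Level S) : Function.Injective (ofJ L) := by
  intro x y h
  funext q
  exact ofJq_injective L q.1 (congrArg (JJS.proj S q) h)

lemma ofJ_smul (L : Level S) (g : Tow.GQ) (x : ∀ q : ↥S, (L.J q.1).V) :
    ofJ L (fun q => (L.J q.1).ρ (QuotientGroup.mk g) (x q)) = g • ofJ L x :=
  JJS.ext S fun q => ofJq_smul L q.1 g (x q)

lemma ofJ_trJ {L L' : Level S} (h : L ≤ L') (x : ∀ q : ↥S, (L.J q.1).V) :
    ofJ L' (fun q => (Level.trJ h q.1).hom (x q)) = ofJ L x :=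
  JJS.ext S fun q => ofJq_trJ h q.1 (x q)

lemma exists_ofJ_eq (L : Level S) (a : JJS S) (ha : ∀ u ∈ L.U, u • a = a) :
    ∃ x : ∀ q : ↥S, (L.J q.1).V, ofJ L x = a := by
  have h : ∀ q : ↥S, ∃ f : (L.J q.1).V, ofJq L q.1 f = JJS.proj S q a := fun q =>
    exists_ofJq_eq L q.1 (JJS.proj S q a) (fun u hu => by
      rw [← JJS.proj_smul, ha u hu])
  choose x hx using h
  exact ⟨x, JJS.ext S fun q => hx q⟩

/-- every element of `𝕁` comes from a level above a given one -/
lemma exists_level_ofJ_eq (L₁ : Level S) (a : JJS S) :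
    ∃ (L : Level S) (_ : L₁ ≤ L) (x : ∀ q : ↥S, (L.J q.1).V), ofJ L x = a := by
  obtain ⟨L', hL'⟩ := JJS.smooth S a
  obtain ⟨x, hx⟩ := exists_ofJ_eq (capSup S L₁ L') a
    (fun u hu => hL' u (Level.U_anti (le_capSup_right S L₁ L') hu))
  exact ⟨capSup S L₁ L', le_capSup_left S L₁ L', x, hx⟩

/-! ### `S`-units -/

/-- an `S`-unit of `L` as an element of `𝔼` -/
def ofU (L : Level S) (e : L.units.V) (he : L.IsSUnit e) : SU S :=
  SU.mk S (L.unitsCoe e) he ⟨L, fun g hg => L.unitsCoe_fixed e g hg⟩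

@[simp] lemma val_ofU (L : Level S) (e : L.units.V) (he : L.IsSUnit e) :
    SU.val S (ofU L e he) = L.unitsCoe e := rfl

lemma exists_ofU_eq (L : Level S) (e : SU S) (he : ∀ u ∈ L.U, u • e = e) :
    ∃ (e' : L.units.V) (he' : L.IsSUnit e'), ofU L e' he' = e :=
  ⟨L.unitsMk (SU.val S e) (fun g hg => congrArg (SU.val S) (he g hg)), SU.isSUq S e,
    SU.ext S rfl⟩

lemma ofJq_diag (L : Level S) (q : Nat.Primes) (e : L.units.V) (he : L.IsSUnit e) :
    ofJq L q ((L.diag q).hom e) = iEJq S q (ofU L e he) := by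
  apply JJ.ext
  intro g
  rfl

lemma ofJ_diag (L : Level S) (e : L.units.V) (he : L.IsSUnit e) :
    ofJ L (fun q => (L.diag q.1).hom e) = iEJ S (ofU L e he) :=
  JJS.ext S fun q => ofJq_diag L q.1 e he

end Fermat.Agent.S55.Cap.H899
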